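import Mathlib.Tactic

set_option autoImplicit false

namespace Fermat.Agent.S51_helper46

section Field

variable {K : Type*} [Field K]

/-- From the two (short-form) duplication relations: the value of `B`. -/
theorem short_B_eq {A B X1 X2 : K}
    (h1 : X1 ^ 4 - 2 * A * X1 ^ 2 - 8 * B * X1 + A ^ 2 = 4 * X2 * (X1 ^ 3 + A * X1 + B))
    (h2 : X2 ^ 4 - 2 * A * X2 ^ 2 - 8 * B * X2 + A ^ 2 = 4 * X1 * (X2 ^ 3 + A * X2 + B))
    (hne : X1 ≠ X2) :
    4 * B = (X1 + X2) * ((X1 + X2) ^ 2 - 6 * (X1 * X2) - 2 * A) := by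
  have h : (X1 - X2) * ((X1 + X2) * ((X1 + X2) ^ 2 - 6 * (X1 * X2) - 2 * A) - 4 * B) = 0 := by
    linear_combination h1 - h2
  rcases mul_eq_zero.mp h with h | h
  · exact absurd (sub_eq_zero.mp h) hne
  · linear_combination -h

variable [CharZero K]

/-- From the two (short-form) duplication relations: the quadratic relation for `A`. -/
theorem short_q_sq {A B X1 X2 : K}
    (h1 : X1 ^ 4 - 2 * A * X1 ^ 2 - 8 * B * X1 + A ^ 2 = 4 * X2 * (X1 ^ 3 + A * X1 + B))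
    (h2 : X2 ^ 4 - 2 * A * X2 ^ 2 - 8 * B * X2 + A ^ 2 = 4 * X1 * (X2 ^ 3 + A * X2 + B))
    (hne : X1 ≠ X2) :
    (A + (X1 + X2) ^ 2 - X1 * X2) ^ 2 =
      (2 * (X1 + X2) ^ 2 + X1 * X2) * ((X1 + X2) ^ 2 - 4 * (X1 * X2)) := by
  have hB := short_B_eq h1 h2 hne
  linear_combination (1 / 2) * h1 + (1 / 2) * h2 + (3 / 2) * (X1 + X2) * hB

/-- A root of the short 3-division polynomial cannot be one of the two `x`-coordinates of a
duplication pair unless the discriminant vanishes. -/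
theorem disc_eq_zero_of_psi3_root {A B X1 X2 : K}
    (h1 : X1 ^ 4 - 2 * A * X1 ^ 2 - 8 * B * X1 + A ^ 2 = 4 * X2 * (X1 ^ 3 + A * X1 + B))
    (hne : X1 ≠ X2)
    (h3 : 3 * X1 ^ 4 + 6 * A * X1 ^ 2 + 12 * B * X1 - A ^ 2 = 0) :
    4 * A ^ 3 + 27 * B ^ 2 = 0 := by
  have hf : (X1 - X2) * (X1 ^ 3 + A * X1 + B) = 0 := by
    linear_combination (1 / 4) * h3 + (1 / 4) * h1
  have hf' : X1 ^ 3 + A * X1 + B = 0 := by
    rcases mul_eq_zero.mp hf with h | h
    · exact absurd (sub_eq_zero.mp h) hne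
    · exact h
  have hF : X1 ^ 4 - 2 * A * X1 ^ 2 - 8 * B * X1 + A ^ 2 = 0 := by
    rw [h1, hf', mul_zero]
  linear_combination (3 * X1 ^ 2 + 4 * A) * hF - (3 * X1 ^ 3 - 5 * A * X1 - 27 * B) * hf'

/-- Fricke parametrisation, `c₄` side. Here `s = X1 + X2`, `e = (X2 - X1)^2`, `q = A + s^2 - p`,
`τ = 4 q / e`. -/
theorem fricke_c4 {A s p e q τ : K} (he : e ≠ 0) (hep : e = s ^ 2 - 4 * p)
    (hq : q = A + s ^ 2 - p) (hqq : q ^ 2 = (2 * s ^ 2 + p) * e) (hτ : τ * e = 4 * q) :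
    36 * s ^ 2 = e * (τ ^ 2 + 4) ∧ -48 * A = e * (τ ^ 2 - 12 * τ + 16) := by
  have h36 : 36 * s ^ 2 = e * (τ ^ 2 + 4) := by
    have : e * (36 * s ^ 2 - e * (τ ^ 2 + 4)) = 0 := by
      linear_combination (-16 : K) * hqq - (τ * e + 4 * q) * hτ - 4 * e * hep
    rcases mul_eq_zero.mp this with h | h
    · exact absurd h he
    · linear_combination h
  refine ⟨h36, ?_⟩
  linear_combination (48 : K) * hq + 12 * hτ + h36 - 12 * hep

/-- Fricke parametrisation, `Δ` side. -/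
theorem fricke_delta {A B s e τ : K} (h36 : 36 * s ^ 2 = e * (τ ^ 2 + 4))
    (hA : -48 * A = e * (τ ^ 2 - 12 * τ + 16))
    (hB : 4 * B = s * (s ^ 2 + 2 * e - τ * e / 2)) :
    -16 * (4 * A ^ 3 + 27 * B ^ 2) = e ^ 3 * (τ - 11) := by
  have hA' : A = -e * (τ ^ 2 - 12 * τ + 16) / 48 := by
    linear_combination (-1 / 48 : K) * hA
  have hB' : B = s * (s ^ 2 + 2 * e - τ * e / 2) / 4 := by
    linear_combination (1 / 4 : K) * hB
  rw [hA', hB']
  linear_combination ((-3 / 4) * s ^ 4 + (-1 / 48) * s ^ 2 * e * τ ^ 2 + (3 / 4) * s ^ 2 * e * τ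
    + (-37 / 12) * s ^ 2 * e + (-1 / 1728) * e ^ 2 * τ ^ 4 + (1 / 48) * e ^ 2 * τ ^ 3
    + (-119 / 432) * e ^ 2 * τ ^ 2 + (19 / 12) * e ^ 2 * τ + (-361 / 108) * e ^ 2) * h36

/-- The 3-division relation in symmetric coordinates. -/
theorem psi3_sym {A B s p X0 q : K}
    (hBs : 4 * B = s * (s ^ 2 - 6 * p - 2 * A)) (hq : q = A + s ^ 2 - p)
    (hqq : q ^ 2 = (2 * s ^ 2 + p) * (s ^ 2 - 4 * p))
    (H3 : 3 * X0 ^ 4 + 6 * A * X0 ^ 2 + 12 * B * X0 - A ^ 2 = 0) :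
    ((s ^ 2 - 4 * p) - 3 * (-(X0 ^ 2 - s * X0 + p))) * (4 * q)
      + ((s ^ 2 - 4 * p) - (-(X0 ^ 2 - s * X0 + p))) * (6 * s * (2 * X0 - s))
      + 6 * (-(X0 ^ 2 - s * X0 + p)) ^ 2 = 0 := by
  subst hq
  linear_combination 2 * H3 - 6 * X0 * hBs + 2 * hqq

/-- The linear relation `L` between `m`, `n`, `τ`. -/
theorem rel_L {e M Q N m n τ : K} (he : e ≠ 0) (hm : m * e = M) (hn : n * e = N)
    (hτ : τ * e = Q) (hrel : (e - 3 * M) * Q + (e - M) * N + 6 * M ^ 2 = 0) :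
    (1 - 3 * m) * τ + (1 - m) * n + 6 * m ^ 2 = 0 := by
  have h : e ^ 2 * ((1 - 3 * m) * τ + (1 - m) * n + 6 * m ^ 2) = 0 := by
    rw [← hm, ← hn, ← hτ] at hrel
    linear_combination hrel
  exact (mul_eq_zero.mp h).resolve_left (pow_ne_zero 2 he)

/-- The quadratic relation `Qd` between `m`, `n`, `τ`. -/
theorem rel_Q {e s X0 M m n τ : K} (he : e ≠ 0) (hm : m * e = M)
    (hn : n * e = 6 * s * (2 * X0 - s)) (h36 : 36 * s ^ 2 = e * (τ ^ 2 + 4))
    (heM : e - 4 * M = (2 * X0 - s) ^ 2) :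
    n ^ 2 = (1 - 4 * m) * (τ ^ 2 + 4) := by
  have h : e ^ 2 * (n ^ 2 - (1 - 4 * m) * (τ ^ 2 + 4)) = 0 := by
    rw [← hm] at heM
    linear_combination (n * e + 6 * s * (2 * X0 - s)) * hn + (2 * X0 - s) ^ 2 * h36
      - e * (τ ^ 2 + 4) * heM
  have := (mul_eq_zero.mp h).resolve_left (pow_ne_zero 2 he)
  linear_combination this

/-- The point on `Y² = X (X + 9) (X - 16)`. -/
theorem point_on_15a {m n τ : K} (hm : m ≠ 0)
    (hL : (1 - 3 * m) * τ + (1 - m) * n + 6 * m ^ 2 = 0)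
    (hQ : n ^ 2 = (1 - 4 * m) * (τ ^ 2 + 4)) :
    (36 * (-((1 - 3 * m) * n + (1 - 4 * m) * (1 - m) * τ) / (2 * m))) ^ 2 =
      (-36 * m) * (-36 * m + 9) * (-36 * m - 16) := by
  have key : ((1 - 3 * m) * n + (1 - 4 * m) * (1 - m) * τ) ^ 2
      = 4 * m ^ 3 * (9 * m + 4) * (1 - 4 * m) := by
    linear_combination (4 * m ^ 3) * hQ + (4 * n * m ^ 2 + (-5) * n * m + n + 12 * τ * m ^ 2
      + (-7) * τ * m + τ + 24 * m ^ 3 + (-6) * m ^ 2) * hL
  have h2m : (2 * m) ≠ 0 := mul_ne_zero two_ne_zero hm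
  rw [mul_pow, div_pow, neg_sq, key]
  field_simp
  ring

/-- The possible values of `τ` at the rational points. -/
theorem tau_values {m n τ : K}
    (hL : (1 - 3 * m) * τ + (1 - m) * n + 6 * m ^ 2 = 0)
    (hQ : n ^ 2 = (1 - 4 * m) * (τ ^ 2 + 4))
    (hm : m = 1 / 4 ∨ m = -4 / 9 ∨ m = -1 ∨ m = 1 / 9) :
    τ = -3 / 2 ∨ τ = 63 / 8 ∨ τ = 1 ∨ τ = 11 ∨ τ = -29 := by
  rcases hm with rfl | rfl | rfl | rfl
  · left
    have hn : n = 0 := by
      have : n ^ 2 = 0 := by rw [hQ]; ring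
      exact pow_eq_zero_iff (two_ne_zero) |>.mp this
    subst hn
    linear_combination 4 * hL
  · right; left
    have h : (8 * τ - 63) ^ 2 = 0 := by
      have hn : n = -(9 / 13) * ((7 / 3) * τ + 32 / 27) := by linear_combination (9 / 13) * hL
      rw [hn] at hQ
      linear_combination (-1521 / 4 : K) * hQ
    have := pow_eq_zero_iff (two_ne_zero) |>.mp h
    linear_combination (1 / 8) * this
  · right; right
    have h : (τ - 1) * (τ - 11) = 0 := by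
      have hn : n = -2 * τ - 3 := by linear_combination (1 / 2) * hL
      rw [hn] at hQ
      linear_combination -hQ
    rcases mul_eq_zero.mp h with h | h
    · left; linear_combination h
    · right; left; linear_combination h
  · right; right; right
    have h : (τ - 11) * (τ + 29) = 0 := by
      have hn : n = -(3 / 4) * τ - 1 / 12 := by linear_combination (9 / 8) * hL
      rw [hn] at hQ
      linear_combination (144 : K) * hQ
    rcases mul_eq_zero.mp h with h | h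
    · left; linear_combination h
    · right; linear_combination h

end Field

end Fermat.Agent.S51_helper46
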