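import Mathlib
import Fermat.Agent.S51_helper46.AlgCore

set_option autoImplicit false

namespace Fermat.Agent.S51_helper46

/-- Core statement over `ℚ` in short coordinates: the symmetric consequences of a rational
`5`-line together with a rational root of the `3`-division polynomial force one of the four
non-cuspidal points of `X₀(15)`. The determination of the rational points of
`Y² = X (X + 9) (X - 16)` is taken as a hypothesis. -/
theorem core_short
    (hC : ∀ X Y : ℚ, Y ^ 2 = X * (X + 9) * (X - 16) →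
      X = 0 ∨ X = -9 ∨ X = 16 ∨ X = 36 ∨ X = -4)
    {A B s p X0 : ℚ}
    (hBs : 4 * B = s * (s ^ 2 - 6 * p - 2 * A))
    (hqq : (A + s ^ 2 - p) ^ 2 = (2 * s ^ 2 + p) * (s ^ 2 - 4 * p))
    (H3 : 3 * X0 ^ 4 + 6 * A * X0 ^ 2 + 12 * B * X0 - A ^ 2 = 0)
    (he : s ^ 2 - 4 * p ≠ 0) (hM : X0 ^ 2 - s * X0 + p ≠ 0)
    (hΔ : 4 * A ^ 3 + 27 * B ^ 2 ≠ 0) :
    ∃ e t : ℚ, (t = -10 ∨ t = -25 / 2 ∨ t = -40 ∨ t = -25 / 8) ∧
      -48 * A = e * (t ^ 2 + 10 * t + 5) ∧ -16 * (4 * A ^ 3 + 27 * B ^ 2) = e ^ 3 * t := by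
  set e : ℚ := s ^ 2 - 4 * p with hedef
  set q : ℚ := A + s ^ 2 - p with hqdef
  set τ : ℚ := 4 * q / e with hτdef
  set M : ℚ := -(X0 ^ 2 - s * X0 + p) with hMdef
  set m : ℚ := M / e with hmdef
  set n : ℚ := 6 * s * (2 * X0 - s) / e with hndef
  have hτ : τ * e = 4 * q := by rw [hτdef]; field_simp
  have hm : m * e = M := by rw [hmdef]; field_simp
  have hn : n * e = 6 * s * (2 * X0 - s) := by rw [hndef]; field_simp
  have hqq' : q ^ 2 = (2 * s ^ 2 + p) * e := hqq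
  obtain ⟨h36, hA⟩ := fricke_c4 he hedef hqdef hqq' hτ
  have hB' : 4 * B = s * (s ^ 2 + 2 * e - τ * e / 2) := by
    rw [hτ, hBs, hedef, hqdef]; ring
  have hΔ' := fricke_delta h36 hA hB'
  have hrel := psi3_sym hBs hqdef hqq H3
  have hL : (1 - 3 * m) * τ + (1 - m) * n + 6 * m ^ 2 = 0 :=
    rel_L he hm hn hτ hrel
  have heM : e - 4 * M = (2 * X0 - s) ^ 2 := by rw [hedef, hMdef]; ring
  have hQ : n ^ 2 = (1 - 4 * m) * (τ ^ 2 + 4) := rel_Q he hm hn h36 heM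
  have hM0 : M ≠ 0 := by rw [hMdef]; exact neg_ne_zero.mpr hM
  have hm0 : m ≠ 0 := by rw [hmdef]; exact div_ne_zero hM0 he
  have hpt := point_on_15a hm0 hL hQ
  have hmv : m = 1 / 4 ∨ m = -4 / 9 ∨ m = -1 ∨ m = 1 / 9 := by
    rcases hC _ _ hpt with h | h | h | h | h
    · exact absurd (by linarith) hm0
    · left; linarith
    · right; left; linarith
    · right; right; left; linarith
    · right; right; right; linarith
  have hτv := tau_values hL hQ hmv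
  refine ⟨e, τ - 11, ?_, ?_, ?_⟩
  · rcases hτv with h | h | h | h | h
    · right; left; rw [h]; norm_num
    · right; right; right; rw [h]; norm_num
    · left; rw [h]; norm_num
    · exfalso
      apply hΔ
      have : -16 * (4 * A ^ 3 + 27 * B ^ 2) = 0 := by rw [hΔ', h]; ring
      linarith
    · right; right; left; rw [h]; norm_num
  · rw [hA]; ring
  · exact hΔ'

/-- Part D, arithmetic core. -/
theorem five_dvd_of_eq {a b1 c4 Δ : ℤ} (ha : ¬ (5 : ℤ) ∣ a) (hb1 : ¬ (5 : ℤ) ∣ b1)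
    (h : a * c4 ^ 3 = 5 * b1 * Δ ∨ a * c4 ^ 3 = 25 * b1 * Δ) :
    (5 : ℤ) ∣ c4 ∧ (5 : ℤ) ∣ Δ := by
  have hp : Prime (5 : ℤ) := Int.prime_iff_natAbs_prime.mpr (by norm_num)
  have h5 : (5 : ℤ) ∣ a * c4 ^ 3 := by
    rcases h with h | h
    · exact ⟨b1 * Δ, by rw [h]; ring⟩
    · exact ⟨5 * b1 * Δ, by rw [h]; ring⟩
  have hc4 : (5 : ℤ) ∣ c4 := by
    rcases hp.dvd_or_dvd h5 with h' | h'
    · exact absurd h' ha
    · exact hp.dvd_of_dvd_pow h'
  refine ⟨hc4, ?_⟩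
  obtain ⟨k, rfl⟩ := hc4
  have h5' : (5 : ℤ) ∣ b1 * Δ := by
    rcases h with h | h
    · exact ⟨5 * a * k ^ 3, by linarith [h, show a * (5 * k) ^ 3 = 125 * a * k ^ 3 by ring]⟩
    · exact ⟨a * k ^ 3, by linarith [h, show a * (5 * k) ^ 3 = 125 * a * k ^ 3 by ring]⟩
  rcases hp.dvd_or_dvd h5' with h' | h'
  · exact absurd h' hb1
  · exact h'

/-- Part D: the four values of `t` are incompatible with semistability at `5`. -/
theorem false_of_t_values {c4 Δ : ℤ} (hΔ0 : Δ ≠ 0)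
    (hss : (5 : ℤ) ∣ Δ → ¬ (5 : ℤ) ∣ c4) {e t : ℚ}
    (ht : t = -10 ∨ t = -25 / 2 ∨ t = -40 ∨ t = -25 / 8)
    (h4 : (c4 : ℚ) = e * (t ^ 2 + 10 * t + 5)) (hΔ : (Δ : ℚ) = e ^ 3 * t) : False := by
  have key : (c4 : ℚ) ^ 3 * t = (t ^ 2 + 10 * t + 5) ^ 3 * (Δ : ℚ) := by
    rw [h4, hΔ]; ring
  have main : (5 : ℤ) ∣ c4 ∧ (5 : ℤ) ∣ Δ := by
    rcases ht with rfl | rfl | rfl | rfl
    · have h : (-2 : ℤ) * c4 ^ 3 = 25 * 1 * Δ := by
        have : ((-2 : ℤ) * c4 ^ 3 : ℚ) = ((25 * 1 * Δ : ℤ) : ℚ) := by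
          push_cast; linear_combination (1 / 5 : ℚ) * key
        exact_mod_cast this
      exact five_dvd_of_eq (by norm_num) (by norm_num) (Or.inr h)
    · have h : (-32 : ℤ) * c4 ^ 3 = 5 * 24389 * Δ := by
        have : ((-32 : ℤ) * c4 ^ 3 : ℚ) = ((5 * 24389 * Δ : ℤ) : ℚ) := by
          push_cast; linear_combination (64 / 25 : ℚ) * key
        exact_mod_cast this
      exact five_dvd_of_eq (by norm_num) (by norm_num) (Or.inl h)
    · have h : (-8 : ℤ) * c4 ^ 3 = 25 * 13997521 * Δ := by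
        have : ((-8 : ℤ) * c4 ^ 3 : ℚ) = ((25 * 13997521 * Δ : ℤ) : ℚ) := by
          push_cast; linear_combination (1 / 5 : ℚ) * key
        exact_mod_cast this
      exact five_dvd_of_eq (by norm_num) (by norm_num) (Or.inr h)
    · have h : (32768 : ℤ) * c4 ^ 3 = 5 * 9393931 * Δ := by
        have : ((32768 : ℤ) * c4 ^ 3 : ℚ) = ((5 * 9393931 * Δ : ℤ) : ℚ) := by
          push_cast; linear_combination (-262144 / 25 : ℚ) * key
        exact_mod_cast this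
      exact five_dvd_of_eq (by norm_num) (by norm_num) (Or.inl h)
  exact hss main.2 main.1

end Fermat.Agent.S51_helper46
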