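import Mathlib
import Fermat.Agent.S51_helper46.PartB

set_option autoImplicit false

namespace Fermat.Agent.S51_helper46

/-- Parts B + D for abstract data: a rational root `x3` of the `3`-division polynomial and a
pair `α, β` (in an extension field `K` of `ℚ`) with rational sum and product, swapped by the
duplication map, contradict semistability at `5`. The rational points of
`Y² = X (X + 9) (X - 16)` are taken as a hypothesis. -/
theorem false_of_data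
    (hC : ∀ X Y : ℚ, Y ^ 2 = X * (X + 9) * (X - 16) →
      X = 0 ∨ X = -9 ∨ X = 16 ∨ X = 36 ∨ X = -4)
    {c4 Δ : ℤ} (hΔ0 : Δ ≠ 0) (hss : (5 : ℤ) ∣ Δ → ¬ (5 : ℤ) ∣ c4)
    {b2 b4 b6 b8 : ℚ} (hb : 4 * b8 = b2 * b6 - b4 ^ 2)
    (hc4 : (c4 : ℚ) = b2 ^ 2 - 24 * b4)
    (hΔ : (Δ : ℚ) = -b2 ^ 2 * b8 - 8 * b4 ^ 3 - 27 * b6 ^ 2 + 9 * b2 * b4 * b6)
    {x3 : ℚ} (h3 : 3 * x3 ^ 4 + b2 * x3 ^ 3 + 3 * b4 * x3 ^ 2 + 3 * b6 * x3 + b8 = 0)
    {K : Type*} [Field K] [Algebra ℚ K] {e1 e2 : ℚ} {α β : K}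
    (hsum : α + β = algebraMap ℚ K e1) (hprod : α * β = algebraMap ℚ K e2) (hne : α ≠ β)
    (hα : α ^ 4 - algebraMap ℚ K b4 * α ^ 2 - 2 * algebraMap ℚ K b6 * α - algebraMap ℚ K b8
      = β * (4 * α ^ 3 + algebraMap ℚ K b2 * α ^ 2 + 2 * algebraMap ℚ K b4 * α
        + algebraMap ℚ K b6))
    (hβ : β ^ 4 - algebraMap ℚ K b4 * β ^ 2 - 2 * algebraMap ℚ K b6 * β - algebraMap ℚ K b8
      = α * (4 * β ^ 3 + algebraMap ℚ K b2 * β ^ 2 + 2 * algebraMap ℚ K b4 * β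
        + algebraMap ℚ K b6)) :
    False := by
  have : CharZero K := charZero_of_injective_algebraMap (algebraMap ℚ K).injective
  simp only [eq_ratCast] at hsum hprod hα hβ
  have hb' : 4 * (b8 : K) = (b2 : K) * (b6 : K) - (b4 : K) ^ 2 := by exact_mod_cast congrArg (Rat.cast : ℚ → K) hb
  set A : ℚ := -(b2 ^ 2 - 24 * b4) / 48 with hA
  set B : ℚ := -(-b2 ^ 3 + 36 * b2 * b4 - 216 * b6) / 864 with hB
  set s : ℚ := e1 + b2 / 6 with hs
  set p : ℚ := e2 + b2 * e1 / 12 + b2 ^ 2 / 144 with hp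
  set X0 : ℚ := x3 + b2 / 12 with hX0
  set X1 : K := α + (b2 : K) / 12 with hX1
  set X2 : K := β + (b2 : K) / 12 with hX2
  have hne' : X1 ≠ X2 := fun h => hne (by simpa [hX1, hX2] using h)
  have h1 : X1 ^ 4 - 2 * (A : K) * X1 ^ 2 - 8 * (B : K) * X1 + (A : K) ^ 2
      = 4 * X2 * (X1 ^ 3 + (A : K) * X1 + (B : K)) := by
    rw [hA, hB, hX1, hX2]; push_cast
    linear_combination hα + (1 / 4 : K) * hb'
  have h2 : X2 ^ 4 - 2 * (A : K) * X2 ^ 2 - 8 * (B : K) * X2 + (A : K) ^ 2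
      = 4 * X1 * (X2 ^ 3 + (A : K) * X2 + (B : K)) := by
    rw [hA, hB, hX1, hX2]; push_cast
    linear_combination hβ + (1 / 4 : K) * hb'
  have hsK : X1 + X2 = (s : K) := by
    rw [hs, hX1, hX2]; push_cast; linear_combination hsum
  have hpK : X1 * X2 = (p : K) := by
    rw [hp, hX1, hX2]; push_cast; linear_combination hprod + ((b2 : K) / 12) * hsum
  have hBs : 4 * B = s * (s ^ 2 - 6 * p - 2 * A) := by
    have := short_B_eq h1 h2 hne'
    rw [hsK, hpK] at this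
    exact_mod_cast this
  have hqq : (A + s ^ 2 - p) ^ 2 = (2 * s ^ 2 + p) * (s ^ 2 - 4 * p) := by
    have := short_q_sq h1 h2 hne'
    rw [hsK, hpK] at this
    exact_mod_cast this
  have he : s ^ 2 - 4 * p ≠ 0 := by
    intro h
    have hK : ((s ^ 2 - 4 * p : ℚ) : K) = (X1 - X2) ^ 2 := by
      push_cast; rw [← hsK, ← hpK]; ring
    rw [h] at hK
    have : X1 - X2 = 0 := by
      have h0 : (X1 - X2) ^ 2 = 0 := by rw [← hK]; simp
      exact pow_eq_zero_iff (two_ne_zero) |>.mp h0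
    exact hne' (sub_eq_zero.mp this)
  have H3 : 3 * X0 ^ 4 + 6 * A * X0 ^ 2 + 12 * B * X0 - A ^ 2 = 0 := by
    rw [hA, hB, hX0]
    linear_combination h3 - (1 / 4 : ℚ) * hb
  have hΔs : -16 * (4 * A ^ 3 + 27 * B ^ 2) = (Δ : ℚ) := by
    rw [hΔ, hA, hB]
    linear_combination (b2 ^ 2 / 4) * hb
  have hΔne : 4 * A ^ 3 + 27 * B ^ 2 ≠ 0 := by
    intro h
    rw [h] at hΔs
    have : (Δ : ℚ) = 0 := by rw [← hΔs]; ring
    exact hΔ0 (by exact_mod_cast this)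
  have hΔK : 4 * (A : K) ^ 3 + 27 * (B : K) ^ 2 ≠ 0 := by
    intro h
    exact hΔne (by exact_mod_cast h)
  have H3K : 3 * (X0 : K) ^ 4 + 6 * (A : K) * (X0 : K) ^ 2 + 12 * (B : K) * (X0 : K)
      - (A : K) ^ 2 = 0 := by exact_mod_cast congrArg (Rat.cast : ℚ → K) H3
  have hM : X0 ^ 2 - s * X0 + p ≠ 0 := by
    intro h
    have hK : ((X0 : K) - X1) * ((X0 : K) - X2) = 0 := by
      have : ((X0 ^ 2 - s * X0 + p : ℚ) : K) = ((X0 : K) - X1) * ((X0 : K) - X2) := by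
        push_cast; rw [← hsK, ← hpK]; ring
      rw [← this, h]; simp
    rcases mul_eq_zero.mp hK with h' | h'
    · have hx : (X0 : K) = X1 := sub_eq_zero.mp h'
      rw [hx] at H3K
      exact hΔK (disc_eq_zero_of_psi3_root h1 hne' H3K)
    · have hx : (X0 : K) = X2 := sub_eq_zero.mp h'
      rw [hx] at H3K
      exact hΔK (disc_eq_zero_of_psi3_root h2 hne'.symm H3K)
  obtain ⟨e, t, ht, h4, hd⟩ := core_short hC hBs hqq H3 he hM hΔne
  refine false_of_t_values (e := e) hΔ0 hss ht ?_ ?_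
  · rw [hc4, ← h4, hA]; ring
  · rw [← hΔs, hd]

end Fermat.Agent.S51_helper46
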