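import Mathlib
import Fermat.Prelude.Def_FLTPrelim_Modularity
import Fermat.Agent.S51_helper46.Transport

set_option autoImplicit false

namespace Fermat.Agent.S51_helper46

/-- Parts B + D of S51 for an integral Weierstrass model: a rational root of the `3`-division
polynomial together with a duplication pair `α, β` with rational sum and product contradicts
semistability. The rational points of `Y² = X (X + 9) (X - 16)` are taken as a hypothesis. -/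
theorem false_of_three_five_data
    (hC : ∀ X Y : ℚ, Y ^ 2 = X * (X + 9) * (X - 16) →
      X = 0 ∨ X = -9 ∨ X = 16 ∨ X = 36 ∨ X = -4)
    (W : WeierstrassCurve ℤ) (hΔ : W.Δ ≠ 0) (hW : W.IsSemistableModel)
    {x3 : ℚ}
    (h3 : 3 * x3 ^ 4 + (W.b₂ : ℚ) * x3 ^ 3 + 3 * (W.b₄ : ℚ) * x3 ^ 2 + 3 * (W.b₆ : ℚ) * x3
      + (W.b₈ : ℚ) = 0)
    {K : Type*} [Field K] [Algebra ℚ K] {e1 e2 : ℚ} {α β : K}
    (hsum : α + β = algebraMap ℚ K e1) (hprod : α * β = algebraMap ℚ K e2) (hne : α ≠ β)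
    (hα : α ^ 4 - algebraMap ℚ K (W.b₄ : ℚ) * α ^ 2 - 2 * algebraMap ℚ K (W.b₆ : ℚ) * α
        - algebraMap ℚ K (W.b₈ : ℚ)
      = β * (4 * α ^ 3 + algebraMap ℚ K (W.b₂ : ℚ) * α ^ 2
        + 2 * algebraMap ℚ K (W.b₄ : ℚ) * α + algebraMap ℚ K (W.b₆ : ℚ)))
    (hβ : β ^ 4 - algebraMap ℚ K (W.b₄ : ℚ) * β ^ 2 - 2 * algebraMap ℚ K (W.b₆ : ℚ) * β
        - algebraMap ℚ K (W.b₈ : ℚ)
      = α * (4 * β ^ 3 + algebraMap ℚ K (W.b₂ : ℚ) * β ^ 2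
        + 2 * algebraMap ℚ K (W.b₄ : ℚ) * β + algebraMap ℚ K (W.b₆ : ℚ))) :
    False := by
  have hb : 4 * (W.b₈ : ℚ) = (W.b₂ : ℚ) * (W.b₆ : ℚ) - (W.b₄ : ℚ) ^ 2 := by
    exact_mod_cast congrArg (Int.cast : ℤ → ℚ) W.b_relation
  have hc4 : (W.c₄ : ℚ) = (W.b₂ : ℚ) ^ 2 - 24 * (W.b₄ : ℚ) := by
    rw [WeierstrassCurve.c₄]; push_cast; ring
  have hΔq : (W.Δ : ℚ) = -(W.b₂ : ℚ) ^ 2 * (W.b₈ : ℚ) - 8 * (W.b₄ : ℚ) ^ 3
      - 27 * (W.b₆ : ℚ) ^ 2 + 9 * (W.b₂ : ℚ) * (W.b₄ : ℚ) * (W.b₆ : ℚ) := by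
    rw [WeierstrassCurve.Δ]; push_cast; ring
  have hss : (5 : ℤ) ∣ W.Δ → ¬ (5 : ℤ) ∣ W.c₄ := by
    have := hW 5 (by norm_num)
    simpa using this
  exact false_of_data hC hΔ hss hb hc4 hΔq h3 hsum hprod hne hα hβ

end Fermat.Agent.S51_helper46
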